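/-
P-SS2 (S36, Carayol), J-side, row SS2-J9 BRIDGE (row 1024, helper32).

`bridge : Fermat.Agent.H63.SS2.BridgeStatement`:  `(KC-FF) L q ⇒ (KC)_J` at level `L q`.

Divisor algebra over `ℚ̄`.  `x = [D]`, `m D = div f`.
* inertia: `σ x = x` gives `σ D - D = div u`, hence `div (σ f / f) = m div u` and `σ f / f` is an
  `m`-th power (functions without zeros and poles are constant, `ℚ̄` is algebraically closed);
* norms: `π_* x = 0` gives `π_* D = div h`, hence `div (N f) = m div h` (norm formula) and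
  `N f` is an `m`-th power;
* conclusion: `w ^ m = f ^ c` gives `div w = c D`, so `c x = 0`.
-/
import Fermat.Agent.H63.SS2.Interfaces

set_option autoImplicit false
set_option linter.style.haveILetI false
set_option linter.unusedSectionVars false

noncomputable section

namespace Fermat.Agent.H32.SS2Bridge

open AlgebraicCurve ModularCurve IntermediateField

/-! ## Generic divisor algebra -/

section Generic

variable {K F : Type*} [Field K] [Field F] [Algebra K F]

theorem pic0_mk_eq_zero_iff' (D : Divisor.degZero (K := K) (F := F)) :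
    Pic0.mk D = 0 ↔ (D : Divisor K F) ∈ Divisor.principal (K := K) (F := F) := by
  unfold Pic0.mk
  rw [QuotientAddGroup.eq_zero_iff, AddSubgroup.mem_addSubgroupOf]

theorem pic0_nsmul_mk_eq_zero_iff' (m : ℕ) (D : Divisor.degZero (K := K) (F := F)) :
    m • Pic0.mk D = 0 ↔ m • (D : Divisor K F) ∈ Divisor.principal (K := K) (F := F) := by
  have h : m • Pic0.mk D = Pic0.mk (m • D) := rfl
  rw [h, pic0_mk_eq_zero_iff']
  rfl

theorem pic0_mk_eq_mk_iff (D E : Divisor.degZero (K := K) (F := F)) :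
    Pic0.mk D = Pic0.mk E ↔
      (D : Divisor K F) - (E : Divisor K F) ∈ Divisor.principal (K := K) (F := F) := by
  have h : Pic0.mk D = Pic0.mk E ↔ Pic0.mk (D - E) = 0 := by
    have h1 : Pic0.mk (D - E) = Pic0.mk D - Pic0.mk E := rfl
    rw [h1, sub_eq_zero]
  rw [h, pic0_mk_eq_zero_iff']
  rfl

theorem ord_pow (v : Place K F) (f : F) (n : ℕ) : v.ord (f ^ n) = n * v.ord f := by
  have h := v.ord_zpow f (n : ℤ)
  rwa [zpow_natCast] at h

theorem ord_div (v : Place K F) {f g : F} (hf : f ≠ 0) (hg : g ≠ 0) :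
    v.ord (f / g) = v.ord f - v.ord g := by
  rw [div_eq_mul_inv, v.ord_mul hf (inv_ne_zero hg), v.ord_inv]
  ring

end Generic

section AlgClosed

variable {K F : Type} [Field K] [Field F] [Algebra K F] [IsAlgClosed K] [CharZero K]

/-- In a function field over an algebraically closed field: if `div g = m div h`, then `g` is
an `m`-th power. -/
theorem exists_pow_eq_of_ord (x : F) (hfin : FiniteDimensional K⟮x⟯ F) {m : ℕ} (hm : 0 < m)
    {g h : F} (hg : g ≠ 0) (hh : h ≠ 0)
    (hord : ∀ v : Place K F, v.ord g = (m : ℤ) * v.ord h) : ∃ w : F, w ^ m = g := by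
  have hhm : h ^ m ≠ 0 := pow_ne_zero m hh
  have h0 : ∀ v : Place K F, v.ord (g / h ^ m) = 0 := by
    intro v
    rw [ord_div v hg hhm, ord_pow, hord v, sub_self]
  obtain ⟨c, hc⟩ := Fermat.Agent.H19.exists_const_of_ord_eq_zero x hfin (g / h ^ m) h0
  obtain ⟨c₁, hc₁⟩ := IsAlgClosed.exists_pow_nat_eq c hm
  refine ⟨algebraMap K F c₁ * h, ?_⟩
  rw [mul_pow, ← map_pow, hc₁, ← hc, div_mul_cancel₀ _ hhm]

end AlgClosed

section Norm

variable {K F F' : Type*} [Field K] [Field F] [Field F'] [Algebra K F] [Algebra K F']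

/-- The norm formula in the `…Along` language. -/
theorem pushforwardAlong_eq_ord_norm (φ : F →ₐ[K] F') (hφ : φ.toRingHom.IsIntegral)
    (hfin : FiniteAlong K φ) (hN : NormFormulaAlong K φ hfin) {f : F'} (hf : f ≠ 0)
    (E : Divisor K F') (hE : ∀ w, E w = w.ord f) (v : Place K F) :
    Divisor.pushforwardAlong φ hφ E v = v.ord (Fermat.Agent.H11.SS2.ss2NormAlong φ f) := by
  letI := algebraAlong φ
  haveI := isScalarTower_along φ
  haveI := isIntegral_along φ hφ
  haveI : Module.Finite F F' := hfin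
  exact hN f hf E hE v

theorem ss2NormAlong_ne_zero (φ : F →ₐ[K] F') (hfin : FiniteAlong K φ) {f : F'} (hf : f ≠ 0) :
    Fermat.Agent.H11.SS2.ss2NormAlong φ f ≠ 0 := by
  letI := algebraAlong φ
  haveI : Module.Finite F F' := hfin
  exact Algebra.norm_ne_zero_iff.mpr hf

end Norm

/-! ## The three steps, generic form -/

section Steps

variable {K F : Type} [Field K] [Field F] [Algebra K F] [IsAlgClosed K] [CharZero K]

/-- **Inertia step.**  If `m D = div f` and the class of `D` is fixed by the semilinear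
automorphism `g`, then `g f / f` is an `m`-th power. -/
theorem exists_pow_mul_eq_smul (x : F) (hfin : FiniteDimensional K⟮x⟯ F) {m : ℕ} (hm : 0 < m)
    (g : SemilinearAut K F) (D : Divisor.degZero (K := K) (F := F)) {f : F} (hf : f ≠ 0)
    (hDf : ∀ v : Place K F, (m • (D : Divisor K F)) v = v.ord f)
    (hfix : g • Pic0.mk D = Pic0.mk D) : ∃ w : F, w ^ m * f = g • f := by
  have hDf' : ∀ v : Place K F, v.ord f = (m : ℤ) * (D : Divisor K F) v := by
    intro v
    rw [← hDf v, Finsupp.smul_apply, nsmul_eq_mul]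
  rw [SemilinearAut.pic0_smul_mk, pic0_mk_eq_mk_iff] at hfix
  obtain ⟨u, hu, hDu⟩ := hfix
  have hgf : g • f ≠ 0 := by
    intro h0
    apply hf
    have h2 := congrArg (fun y => g⁻¹ • y) h0
    simpa using h2
  have hord : ∀ v : Place K F, v.ord ((g • f) / f) = (m : ℤ) * v.ord u := by
    intro v
    rw [ord_div v hgf hf]
    have h2 : v.ord (g • f) = (g⁻¹ • v).ord f := by
      have h3 := SemilinearAut.ord_smul g (g⁻¹ • v) f
      rwa [smul_inv_smul] at h3
    have h4 := hDu v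
    rw [Finsupp.sub_apply, SemilinearAut.coe_degZeroSMulHom,
      SemilinearAut.divisor_smul_apply] at h4
    rw [h2, hDf', hDf', ← h4]
    ring
  obtain ⟨w, hw⟩ := exists_pow_eq_of_ord x hfin hm (div_ne_zero hgf hf) hu hord
  exact ⟨w, by rw [hw, div_mul_cancel₀ _ hf]⟩

/-- **Conclusion step.**  If `m D = div f` and `w ^ m = f ^ c`, then `c [D] = 0`. -/
theorem nsmul_mk_eq_zero_of_pow_eq {K F : Type*} [Field K] [Field F] [Algebra K F]
    {m c : ℕ} (hm : 0 < m) (D : Divisor.degZero (K := K) (F := F)) {f w : F} (hf : f ≠ 0)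
    (hDf : ∀ v : Place K F, (m • (D : Divisor K F)) v = v.ord f) (hw : w ^ m = f ^ c) :
    c • Pic0.mk D = 0 := by
  have hDf' : ∀ v : Place K F, v.ord f = (m : ℤ) * (D : Divisor K F) v := by
    intro v
    rw [← hDf v, Finsupp.smul_apply, nsmul_eq_mul]
  have hm0 : (m : ℤ) ≠ 0 := Int.natCast_ne_zero.mpr hm.ne'
  rw [pic0_nsmul_mk_eq_zero_iff']
  have hw0 : w ≠ 0 := by
    rintro rfl
    rw [zero_pow hm.ne'] at hw
    exact pow_ne_zero c hf hw.symm
  refine ⟨w, hw0, fun v => ?_⟩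
  have h1 : (m : ℤ) * v.ord w = (c : ℤ) * v.ord f := by
    rw [← ord_pow, ← ord_pow, hw]
  rw [hDf'] at h1
  rw [Finsupp.smul_apply, nsmul_eq_mul]
  have h2 : (m : ℤ) * v.ord w = (m : ℤ) * ((c : ℤ) * (D : Divisor K F) v) := by
    rw [h1]
    ring
  exact (mul_left_cancel₀ hm0 h2).symm

variable {F' : Type} [Field F'] [Algebra K F']

/-- **Norm step.**  If `m D = div f` and the push-forward of the class of `D` along `φ`
vanishes, then the norm of `f` along `φ` is an `m`-th power. -/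
theorem exists_pow_eq_ss2NormAlong (x₀ : F) (hfin₀ : FiniteDimensional K⟮x₀⟯ F)
    (φ : F →ₐ[K] F') (hφ : φ.toRingHom.IsIntegral) (hfin : FiniteAlong K φ)
    (hN : NormFormulaAlong K φ hfin) {m : ℕ} (hm : 0 < m)
    (D : Divisor.degZero (K := K) (F := F')) {f : F'} (hf : f ≠ 0)
    (hDf : ∀ v : Place K F', (m • (D : Divisor K F')) v = v.ord f)
    (hpush : Pic0.mk (Fermat.Agent.H63.SS2.degZeroPushAlong φ hφ D) = 0) :
    ∃ h : F, h ^ m = Fermat.Agent.H11.SS2.ss2NormAlong φ f := by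
  rw [pic0_mk_eq_zero_iff'] at hpush
  obtain ⟨h, hh, hDh⟩ := hpush
  refine exists_pow_eq_of_ord x₀ hfin₀ hm (ss2NormAlong_ne_zero _ hfin hf) hh (fun v => ?_)
  have h2 := hDh v
  rw [Fermat.Agent.H63.SS2.coe_degZeroPushAlong] at h2
  rw [← pushforwardAlong_eq_ord_norm _ hφ hfin hN hf (m • (D : Divisor K F')) hDf v,
    map_nsmul, Finsupp.smul_apply, nsmul_eq_mul, h2]

end Steps

/-! ## The bridge -/

section Main

open Fermat.Agent.H63.SS2 Fermat.Agent.H11.SS2

/-- **SS2-J9 (BRIDGE).**  `(KC-FF) ⇒ (KC)_J` at the same level. -/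
theorem bridge : Fermat.Agent.H63.SS2.BridgeStatement := by
  intro L q _ _ hq hFF A hA
  obtain ⟨c, hc, hmain⟩ := hFF A hA
  refine ⟨c, hc, fun m hm hqm x hmx hx hσ => ?_⟩
  obtain ⟨D, rfl⟩ := Pic0.mk_surjective x
  -- the function fields of level `L q` and `L`
  obtain ⟨x', -, hfin'⟩ := Fermat.Agent.H54.isFunctionField (AlgebraicClosure ℚ) (L * q)
  obtain ⟨x₀, -, hfin₀⟩ := Fermat.Agent.H54.isFunctionField (AlgebraicClosure ℚ) L
  -- `m D = div f`
  obtain ⟨f, hf, hDf⟩ := (pic0_nsmul_mk_eq_zero_iff' m D).mp hmx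
  -- the inputs of the two push-forwards
  have hdeg : DegInputs (AlgebraicClosure ℚ) L q := degInputs (AlgebraicClosure ℚ) L q hq
  obtain ⟨hα, hβ, hfα, hfβ, hNα, hNβ⟩ := hdeg
  have hdeg' : DegInputs (AlgebraicClosure ℚ) L q := ⟨hα, hβ, hfα, hfβ, hNα, hNβ⟩
  rw [mem_newPart] at hx
  obtain ⟨hxA, hxB⟩ := hx
  rw [pushA_mk hdeg' hα D] at hxA
  rw [pushB_mk hdeg' hβ D] at hxB
  -- (KC-FF)
  obtain ⟨w, hw⟩ := hmain m hm hqm f hf
    (fun P => ⟨_, by rw [← hDf P, Finsupp.smul_apply, nsmul_eq_mul]⟩)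
    (fun σ hσI => exists_pow_mul_eq_smul x' hfin' hm
      (arithmeticGalois (modularFunctionFieldFull (L * q)) σ) D hf hDf (hσ σ hσI))
    (exists_pow_eq_ss2NormAlong x₀ hfin₀ _ hα hfα hNα hm D hf hDf hxA)
    (exists_pow_eq_ss2NormAlong x₀ hfin₀ _ hβ hfβ hNβ hm D hf hDf hxB)
  exact nsmul_mk_eq_zero_of_pow_eq hm D hf hDf hw

end Main

end Fermat.Agent.H32.SS2Bridge

end
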